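import Fermat.Agent.ES.Glue.Supp
import Fermat.Agent.Crux.Main
import Fermat.Agent.Lib.FrobDensity.ForES

/-!
# The Eichler–Shimura module exists unconditionally

`Kum N p` is an `ESModule` for every level `N ≠ 0` and every prime `p`
(`Glue.esModuleOfCrux` fed with `Crux.crux`).
-/

set_option autoImplicit false

namespace Fermat.Agent.ES.Final

theorem nonempty_esModule (N : ℕ) [NeZero N] (m : ℕ) (hm : 0 < m) :
    Nonempty (D.ESModule N m) :=
  ⟨Glue.esModuleOfCrux hm (fun ℓ hℓ hℓNm =>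
    Fermat.Agent.Crux.crux N ℓ m hℓ (fun h => hℓNm (Dvd.dvd.mul_right h m))
      (fun h => hℓNm (Dvd.dvd.mul_left h N)))⟩

theorem hES : ∀ (N : ℕ) [NeZero N] (p : ℕ), p.Prime → Nonempty (D.ESModule N p) :=
  fun N _ p hp => nonempty_esModule N p hp.pos

end Fermat.Agent.ES.Final
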